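/-
Program R, package R7 (helper3): asymptotics at `i∞` of functions meromorphic at infinity, in terms
of the order of their Laurent `q`-expansion.
-/
import Fermat.Agent.ProgramR.QExp.Laurent

set_option autoImplicit false

noncomputable section

open Complex Filter Function
open UpperHalfPlane hiding I
open scoped Real Topology Manifold

namespace Fermat.Agent.ProgramR.QExp

local notation "𝕢" => Periodic.qParam

/-- **Leading term asymptotics**: a nonzero function meromorphic at `i∞` is `q^n · f₁` with `n` the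
order of its Laurent expansion and `f₁` tending to a nonzero limit at `i∞`. -/
theorem exists_tendsto_of_order {h : ℝ} (hh : 0 < h) {M : ℕ} {f : ℍ → ℂ}
    (hf : IsMeroAtInfty h M f) (hf0 : f ≠ 0) :
    ∃ c : ℂ, c ≠ 0 ∧
      Tendsto (fun τ : ℍ => 𝕢 h τ ^ (-(laurentExp h f).order) * f τ) atImInfty (𝓝 c) := by
  set L := laurentExp h f with hL
  have hL0 : L ≠ 0 := fun h0 => hf0 (eq_zero_of_laurentExp_eq_zero hh hf h0)
  set n := L.order with hn
  have hcn : L.coeff n ≠ 0 := fun h0 => hL0 (HahnSeries.coeff_order_eq_zero.mp h0)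
  have hnM : -(M : ℤ) ≤ n := by
    by_contra hlt
    push Not at hlt
    exact hcn (laurentExp_coeff_of_lt hh hf hlt)
  obtain ⟨k, hk⟩ := Int.eq_ofNat_of_zero_le (show 0 ≤ n + M by omega)
  have hb := hf.isHolPerBdd hh
  set G := cuspFunction h (qPow h M * f) with hG
  have hGan : AnalyticAt ℂ G 0 := hb.analyticAt hh
  -- Taylor coefficients of `G` are the Laurent coefficients of `f`
  have hcoeff : ∀ i : ℕ, L.coeff ((i : ℤ) - M) =
      ((i.factorial : ℂ))⁻¹ * iteratedDeriv i G 0 := by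
    intro i
    rw [hL, laurentExp_coeff hh hf, if_pos (by omega)]
    have : ((i : ℤ) - M + M).toNat = i := by omega
    rw [this, qExpansion_coeff]
  have hfact : ∀ i : ℕ, ((i.factorial : ℂ))⁻¹ ≠ 0 := fun i =>
    inv_ne_zero (Nat.cast_ne_zero.mpr (Nat.factorial_ne_zero i))
  have hord : analyticOrderAt G 0 = k := by
    rw [analyticOrderAt_eq_nat_iff_iteratedDeriv_eq_zero hGan]
    constructor
    · intro i hi
      have h1 : L.coeff ((i : ℤ) - M) = 0 :=
        HahnSeries.coeff_eq_zero_of_lt_order (by omega)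
      rw [hcoeff i] at h1
      exact (mul_eq_zero.mp h1).resolve_left (hfact i)
    · intro h0
      apply hcn
      have : n = (k : ℤ) - M := by omega
      rw [this, hcoeff k, h0, mul_zero]
  obtain ⟨G₁, hG₁an, hG₁0, hG₁⟩ := (hGan.analyticOrderAt_eq_natCast).mp hord
  refine ⟨G₁ 0, hG₁0, ?_⟩
  have hq0 : Tendsto (fun τ : ℍ => 𝕢 h τ) atImInfty (𝓝 0) := qParam_tendsto_atImInfty hh
  have h1 : Tendsto (fun τ : ℍ => G₁ (𝕢 h τ)) atImInfty (𝓝 (G₁ 0)) :=
    hG₁an.continuousAt.tendsto.comp hq0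
  refine h1.congr' ?_
  have hev : ∀ᶠ τ : ℍ in atImInfty, G (𝕢 h τ) = (𝕢 h τ - 0) ^ k • G₁ (𝕢 h τ) :=
    hq0.eventually hG₁
  filter_upwards [hev] with τ hτ
  have hq : 𝕢 h (τ : ℂ) ≠ 0 := Periodic.qParam_ne_zero _
  have hGτ : G (𝕢 h τ) = 𝕢 h τ ^ M * f τ := by
    rw [hG, eq_cuspFunction τ hh.ne' hb.periodic]
    rfl
  rw [hGτ, sub_zero, smul_eq_mul] at hτ
  -- `q^M f = q^k G₁`, `k = n + M`
  have hnk : -n = (M : ℤ) - k := by omega
  rw [hnk, zpow_sub₀ hq, zpow_natCast, zpow_natCast]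
  field_simp
  rw [hτ]
  ring

/-- A nonzero function meromorphic at `i∞` does not vanish near `i∞`. -/
theorem eventually_ne_zero {h : ℝ} (hh : 0 < h) {M : ℕ} {f : ℍ → ℂ}
    (hf : IsMeroAtInfty h M f) (hf0 : f ≠ 0) : ∀ᶠ τ : ℍ in atImInfty, f τ ≠ 0 := by
  obtain ⟨c, hc, ht⟩ := exists_tendsto_of_order hh hf hf0
  filter_upwards [ht.eventually_ne hc] with τ hτ h0
  apply hτ
  rw [h0, mul_zero]

/-- **Quotients at infinity**: if `F · v = w` with `v ≠ 0`, `w` meromorphic at `i∞`, and the order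
of `w` exceeds that of `v`, then `F` tends to zero at `i∞`. -/
theorem isZeroAtImInfty_of_mul_eq {h : ℝ} (hh : 0 < h) {Mv Mw : ℕ} {v w F : ℍ → ℂ}
    (hv : IsMeroAtInfty h Mv v) (hw : IsMeroAtInfty h Mw w) (hv0 : v ≠ 0)
    (hmul : ∀ τ, F τ * v τ = w τ)
    (hord : w = 0 ∨ (laurentExp h v).order + 1 ≤ (laurentExp h w).order) :
    IsZeroAtImInfty F := by
  have hvne := eventually_ne_zero hh hv hv0
  by_cases hw0 : w = 0
  · -- `F` vanishes near infinity
    have : ∀ᶠ τ : ℍ in atImInfty, F τ = 0 := by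
      filter_upwards [hvne] with τ hτ
      have := hmul τ
      rw [hw0, Pi.zero_apply, mul_eq_zero] at this
      exact this.resolve_right hτ
    exact (tendsto_const_nhds (x := (0 : ℂ))).congr' (this.mono fun τ hτ => hτ.symm)
  have hord' := hord.resolve_left hw0
  obtain ⟨cv, hcv, htv⟩ := exists_tendsto_of_order hh hv hv0
  obtain ⟨cw, hcw, htw⟩ := exists_tendsto_of_order hh hw hw0
  set nv := (laurentExp h v).order
  set nw := (laurentExp h w).order
  obtain ⟨d, hd⟩ := Int.eq_ofNat_of_zero_le (show 0 ≤ nw - nv - 1 by omega)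
  have hq0 : Tendsto (fun τ : ℍ => 𝕢 h τ) atImInfty (𝓝 0) := qParam_tendsto_atImInfty hh
  -- `F = q^(nw - nv) · (q^(-nw) w) / (q^(-nv) v)`
  have h1 : Tendsto (fun τ : ℍ => 𝕢 h τ ^ (d + 1) *
      ((𝕢 h τ ^ (-nw) * w τ) / (𝕢 h τ ^ (-nv) * v τ))) atImInfty (𝓝 (0 ^ (d + 1) * (cw / cv))) :=
    (hq0.pow (d + 1)).mul (htw.div htv hcv)
  rw [zero_pow (Nat.succ_ne_zero d), zero_mul] at h1
  refine h1.congr' ?_
  filter_upwards [hvne] with τ hτ
  have hq : 𝕢 h (τ : ℂ) ≠ 0 := Periodic.qParam_ne_zero _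
  rw [← hmul τ]
  have e : nw = nv + ((d + 1 : ℕ) : ℤ) := by push_cast; omega
  rw [e, neg_add, zpow_add₀ hq, zpow_neg _ ((d + 1 : ℕ) : ℤ), zpow_natCast]
  have hz : 𝕢 h (τ : ℂ) ^ (-nv) ≠ 0 := zpow_ne_zero _ hq
  field_simp

end Fermat.Agent.ProgramR.QExp
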