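/-
Program R, package R7 (helper3): conditions at the cusps.
* `isMeroAtInfty_slTranslate_numFun`: for a weight-2 cusp form `f` on `Γ₀(N)` the numerator
  `numFun f = f E₄ E₆ / Δ` has order at least `1 - N` in `q_N` at every cusp;
* `isZeroAtImInfty_slash_of_mul_eq`: if `b · F = a · K` in `Hol` (`K = E₄²E₆/Δ`) and
  `ord_g a ≥ ord_g b + N + 1` then `F ∣[2] g⁻¹` tends to zero at `i∞`;
* `cuspFormOfHol`: construction of a cusp form from a holomorphic function.
-/
import Fermat.Agent.ProgramR.Forms.HolForms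
import Fermat.Agent.ProgramR.Forms.AtInfty
import Fermat.Agent.ProgramR.CuspLocal.JExp

set_option autoImplicit false

noncomputable section

namespace Fermat.Agent.ProgramR.Forms

open Complex Filter Function
open UpperHalfPlane hiding I
open ModularForm EisensteinSeries MatrixGroups CongruenceSubgroup
open Fermat.Agent.ProgramR.LevelOne Fermat.Agent.ProgramR.CuspLocal Fermat.Agent.ProgramR.QExp
open scoped Real Topology Manifold

local notation "Δ" => ModularForm.discriminant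
local notation "𝕢" => Periodic.qParam

lemma denom_T_zpow (n : ℤ) (τ : ℍ) : denom (ModularGroup.T ^ n : SL(2, ℤ)) τ = 1 := by
  have h := ModularGroup.coe_T_zpow n
  rw [ModularGroup.denom_apply, h]
  simp

/-- A nonzero Laurent series whose coefficients vanish below `m` has order at least `m`. -/
lemma le_order_of_forall_coeff {L : LaurentSeries ℂ} (hL : L ≠ 0) {m : ℤ}
    (h : ∀ n : ℤ, n < m → L.coeff n = 0) : m ≤ L.order := by
  by_contra hlt
  push Not at hlt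
  exact hL (HahnSeries.coeff_order_eq_zero.mp (h _ hlt))

variable (N : ℕ) [NeZero N]

omit [NeZero N] in
lemma periodic_of_forall_T_zpow {F : ℍ → ℂ}
    (hF : ∀ τ : ℍ, F ((ModularGroup.T ^ (N : ℤ) : SL(2, ℤ)) • τ) = F τ) :
    Periodic (F ∘ ofComplex) (N : ℝ) := by
  apply QExp.periodic_comp_ofComplex_of_vadd
  intro τ
  have h := hF τ
  rw [modular_T_zpow_smul] at h
  simpa using h

omit [NeZero N] in
lemma isMeroAtInfty_discriminant : IsMeroAtInfty (N : ℝ) 0 (fun z : ℍ => Δ z) := by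
  refine ⟨mdifferentiable_discriminant, periodic_of_forall_T_zpow N fun τ => ?_, ?_⟩
  · rw [discriminant_smul, denom_T_zpow, one_zpow, one_mul]
  · rw [qPow_zero, one_mul]
    exact isBoundedAtImInfty_discriminant

lemma tendsto_qPow_mul_kHol :
    Tendsto (qPow (N : ℝ) N * (kHol : ℍ → ℂ)) atImInfty (𝓝 1) := by
  have h := ((tendsto_E₄_atImInfty.pow 2).mul tendsto_E₆_atImInfty).mul tendsto_q_div_discriminant
  simp only [one_pow, one_mul] at h
  refine h.congr fun z => ?_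
  rw [Pi.mul_apply, qPow_apply, qParam_natCast_pow N (NeZero.pos N), kHol_apply]
  ring

lemma isMeroAtInfty_kHol : IsMeroAtInfty (N : ℝ) N (kHol : ℍ → ℂ) := by
  refine ⟨kHol.2, periodic_of_forall_T_zpow N fun τ => ?_, (tendsto_qPow_mul_kHol N).isBigO_one ℝ⟩
  rw [kHol_smul, denom_T_zpow, one_pow, one_mul]

lemma kHol_ne_zero : kHol ≠ 0 := by
  intro h0
  obtain ⟨z, hz⟩ := jInv_surjective 1
  have h4 : E₄ z ≠ 0 := fun h => by
    rw [(jInv_eq_zero_iff z).mpr h] at hz; exact zero_ne_one hz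
  have h6 : E₆ z ≠ 0 := fun h => by
    rw [(jInv_eq_1728_iff z).mpr h] at hz; norm_num at hz
  have := congrArg (fun F : Hol => (F : ℍ → ℂ) z) h0
  simp only [kHol_apply] at this
  exact div_ne_zero (mul_ne_zero (pow_ne_zero 2 h4) h6) (discriminant_ne_zero z) this

lemma laurentExp_kHol_ne_zero : laurentExp (N : ℝ) (kHol : ℍ → ℂ) ≠ 0 := by
  intro h0
  apply kHol_ne_zero
  apply Subtype.ext
  exact eq_zero_of_laurentExp_eq_zero (natCast_pos_real N) (isMeroAtInfty_kHol N) h0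

lemma neg_le_order_laurentExp_kHol : -(N : ℤ) ≤ (laurentExp (N : ℝ) (kHol : ℍ → ℂ)).order :=
  le_order_of_forall_coeff (laurentExp_kHol_ne_zero N) fun _ hn =>
    laurentExp_coeff_of_lt (natCast_pos_real N) (isMeroAtInfty_kHol N) hn

/-- The numerator of a cusp form has a pole of order at most `N - 1` in `q_N` at every cusp. -/
theorem isMeroAtInfty_slTranslate_numFun (f : CuspForm (Gamma0 N) 2) (g : SL(2, ℤ)) :
    IsMeroAtInfty (N : ℝ) (N - 1) (slTranslate g (numFun f)) := by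
  have hN := natCast_pos_real N
  obtain ⟨m, hm⟩ := exists_isMeroAtInfty_slTranslate (isWH0_numFun f) g (NeZero.pos N)
    (conj_T_zpow_N_mem N g)
  refine ⟨hm.holo, hm.periodic, ?_⟩
  set ψ := slTranslate g (numFun f) with hψ
  set φ : ℍ → ℂ := (f : ℍ → ℂ) ∣[(2 : ℤ)] g⁻¹ with hφ
  have hφ0 : IsZeroAtImInfty φ := cuspForm_slash_isZeroAtImInfty f g⁻¹
  -- `ψ Δ = φ E₄ E₆` tends to zero
  have hψΔ : ∀ τ : ℍ, ψ τ * Δ τ = φ τ * E₄ τ * E₆ τ := by
    intro τ
    rw [hψ, slTranslate_apply, numFun_smul_eq_numFun_slash, numFun,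
      div_mul_cancel₀ _ (discriminant_ne_zero τ)]
  have hmΔ : IsMeroAtInfty (N : ℝ) (m + 0) (ψ * fun z : ℍ => Δ z) :=
    hm.mul (isMeroAtInfty_discriminant N)
  have hzero : IsZeroAtImInfty (ψ * fun z : ℍ => Δ z) := by
    have h1 : Tendsto (fun τ : ℍ => φ τ * E₄ τ * E₆ τ) atImInfty (𝓝 (0 * 1 * 1)) :=
      (hφ0.mul tendsto_E₄_atImInfty).mul tendsto_E₆_atImInfty
    rw [zero_mul, zero_mul] at h1
    exact h1.congr fun τ => (hψΔ τ).symm
  have hdecay := hzero.exp_decay_atImInfty hN hmΔ.periodic hmΔ.holo hzero.isBoundedAtImInfty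
  -- `ψ Δ / q_N` is bounded
  have hb1 : IsBoundedAtImInfty (fun τ : ℍ => (ψ τ * Δ τ) / 𝕢 (N : ℝ) τ) := by
    have h1 : (fun τ : ℍ => (ψ τ * Δ τ) / 𝕢 (N : ℝ) τ) =O[atImInfty]
        fun τ : ℍ => Real.exp (-2 * π * τ.im / N) / ‖𝕢 (N : ℝ) τ‖ := by
      have h2 : (fun τ : ℍ => (𝕢 (N : ℝ) τ)⁻¹) =O[atImInfty]
          fun τ : ℍ => (‖𝕢 (N : ℝ) τ‖)⁻¹ :=
        Asymptotics.isBigO_of_le _ fun τ => by rw [norm_inv, norm_inv, norm_norm]
      simpa [div_eq_mul_inv] using hdecay.mul h2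
    refine h1.trans (Asymptotics.isBigO_of_le _ fun τ => ?_)
    rw [Periodic.norm_qParam]
    have : Real.exp (-2 * π * (τ : ℂ).im / N) ≠ 0 := Real.exp_ne_zero _
    simp only [coe_im] at this ⊢
    rw [div_self this]
    simp
  have hb2 : IsBoundedAtImInfty (fun z : ℍ => 𝕢 1 z / Δ z) :=
    tendsto_q_div_discriminant.isBigO_one ℝ
  refine Asymptotics.IsBigO.congr_left (hb1.mul hb2) fun τ => ?_
  have hq : 𝕢 (N : ℝ) (τ : ℂ) ≠ 0 := Periodic.qParam_ne_zero _
  have hΔ : Δ τ ≠ 0 := discriminant_ne_zero τ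
  have hN1 : N - 1 + 1 = N := Nat.sub_add_cancel (NeZero.pos N)
  have e : 𝕢 (N : ℝ) (τ : ℂ) ^ N = 𝕢 (N : ℝ) (τ : ℂ) ^ (N - 1) * 𝕢 (N : ℝ) (τ : ℂ) := by
    rw [← pow_succ, hN1]
  simp only [Pi.mul_apply, qPow_apply]
  rw [← qParam_natCast_pow N (NeZero.pos N), e]
  field_simp

/-- Coefficients of the expansion of the numerator of a cusp form vanish below `1 - N`. -/
theorem cuspExp_numB_coeff_eq_zero (f : CuspForm (Gamma0 N) 2) (g : SL(2, ℤ)) {n : ℤ}
    (hn : n < 1 - (N : ℤ)) : (cuspExp N g (numB f)).coeff n = 0 := by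
  rw [cuspExp_apply]
  refine laurentExp_coeff_of_lt (natCast_pos_real N) (isMeroAtInfty_slTranslate_numFun N f g) ?_
  have : ((N - 1 : ℕ) : ℤ) = (N : ℤ) - 1 := by
    rw [Nat.cast_sub (NeZero.pos N)]; simp
  rw [this]; omega

theorem one_sub_le_order_cuspExp_numB (f : CuspForm (Gamma0 N) 2) (g : SL(2, ℤ))
    (hf : numB f ≠ 0) : 1 - (N : ℤ) ≤ (cuspExp N g (numB f)).order :=
  le_order_of_forall_coeff (fun h0 => hf (cuspExp_injective N g (by rw [h0, map_zero])))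
    fun _ hn => cuspExp_numB_coeff_eq_zero N f g hn

/-- If `b · F = a · K` in `Hol` and `ord_g a ≥ ord_g b + N + 1` at the cusp `g = γ⁻¹`, then the
weight-2 slash `F ∣[2] γ` tends to zero at `i∞`. -/
theorem isZeroAtImInfty_slash_of_mul_eq {a b : ↥(WH0 (Gamma0 N))} (hb : b ≠ 0) {F : Hol}
    (hmul : WH0.toHol (Gamma0 N) b * F = WH0.toHol (Gamma0 N) a * kHol) (γ : SL(2, ℤ))
    (hord : a = 0 ∨ (cuspExp N γ⁻¹ b).order + N + 1 ≤ (cuspExp N γ⁻¹ a).order) :
    IsZeroAtImInfty ((F : ℍ → ℂ) ∣[(2 : ℤ)] γ) := by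
  have hN := natCast_pos_real N
  obtain ⟨mv, hv⟩ := exists_isMeroAtInfty_slTranslate (mem_WH0.mp b.2) γ⁻¹ (NeZero.pos N)
    (conj_T_zpow_N_mem N γ⁻¹)
  obtain ⟨mu, hu⟩ := exists_isMeroAtInfty_slTranslate (mem_WH0.mp a.2) γ⁻¹ (NeZero.pos N)
    (conj_T_zpow_N_mem N γ⁻¹)
  have hK := isMeroAtInfty_kHol N
  have hw := hu.mul hK
  have hv0 : slTranslate γ⁻¹ b.1 ≠ 0 := by
    intro h0
    apply hb
    apply cuspExp_injective N γ⁻¹
    rw [map_zero, cuspExp_apply, h0]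
    exact laurentExp_zero hN
  refine isZeroAtImInfty_of_mul_eq hN hv hw hv0 (fun τ => ?_) ?_
  · -- pointwise identity
    have h1 := congrArg (fun G : Hol => (G : ℍ → ℂ) (γ • τ)) hmul
    simp only [Subring.coe_mul, Pi.mul_apply, WH0.toHol_apply] at h1
    rw [kHol_smul] at h1
    rw [SL_slash_apply, slTranslate_apply, inv_inv, Pi.mul_apply, slTranslate_apply, inv_inv]
    have hd : denom γ τ ≠ 0 := denom_ne_zero _ _
    have e : (denom (Matrix.SpecialLinearGroup.toGL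
        ((Matrix.SpecialLinearGroup.map (Int.castRingHom ℝ)) γ)) (τ : ℂ)) = denom γ τ := rfl
    rw [e, zpow_neg, show ((2 : ℤ)) = ((2 : ℕ) : ℤ) from rfl, zpow_natCast]
    have h2 : (F : ℍ → ℂ) (γ • τ) * b.1 (γ • τ) = a.1 (γ • τ) * (denom γ τ ^ 2 * (kHol : ℍ → ℂ) τ) := by
      rw [← h1]; ring
    field_simp
    linear_combination h2
  · rcases hord with ha | hord
    · left
      rw [ha]
      funext τ
      simp [slTranslate_apply]
    · by_cases ha : a = 0
      · left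
        rw [ha]
        funext τ
        simp [slTranslate_apply]
      right
      have hLu : laurentExp (N : ℝ) (slTranslate γ⁻¹ a.1) ≠ 0 := by
        rw [← cuspExp_apply]
        exact fun h0 => ha (cuspExp_injective N γ⁻¹ (by rw [h0, map_zero]))
      rw [laurentExp_mul hN hu hK, HahnSeries.order_mul hLu (laurentExp_kHol_ne_zero N),
        ← cuspExp_apply, ← cuspExp_apply]
      have := neg_le_order_laurentExp_kHol N
      omega

/-- Construction of a weight-2 cusp form on `Γ₀(N)` from a holomorphic function which is slash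
invariant and vanishes at all cusps. -/
def cuspFormOfHol (F : Hol)
    (hinv : ∀ γ ∈ Gamma0 N, (F : ℍ → ℂ) ∣[(2 : ℤ)] γ = F)
    (hzero : ∀ γ : SL(2, ℤ), IsZeroAtImInfty ((F : ℍ → ℂ) ∣[(2 : ℤ)] γ)) :
    CuspForm (Gamma0 N) 2 where
  toFun := F
  slash_action_eq' := by
    rintro _ ⟨γ, hγ, rfl⟩
    exact hinv γ hγ
  holo' := F.2
  zero_at_cusps' {c} hc := by
    rw [Subgroup.IsArithmetic.isCusp_iff_isCusp_SL2Z] at hc
    rw [OnePoint.isZeroAt_iff_forall_SL2Z hc]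
    intro γ _
    exact hzero γ

@[simp] lemma cuspFormOfHol_apply (F : Hol)
    (hinv : ∀ γ ∈ Gamma0 N, (F : ℍ → ℂ) ∣[(2 : ℤ)] γ = F)
    (hzero : ∀ γ : SL(2, ℤ), IsZeroAtImInfty ((F : ℍ → ℂ) ∣[(2 : ℤ)] γ)) (z : ℍ) :
    cuspFormOfHol N F hinv hzero z = (F : ℍ → ℂ) z := rfl

end Fermat.Agent.ProgramR.Forms
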