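/-
Program R, package R7 (helper3): weight-2 cusp forms on `Γ₀(N)` are the holomorphic differentials of
the function field of `B_N = WH0 Γ₀(N)`:  `f ↦ numB f / (j (j - 1728))` is a linear isomorphism from
`S₂(Γ₀(N))` onto `W = {h | FinCond h ∧ InfCond h}`, given the finite and infinite dictionaries.
-/
import Fermat.Agent.ProgramR.Forms.CuspCond
import Fermat.Agent.ProgramR.Alg.Setup
import Fermat.Agent.ProgramR.Alg.OrdVal

set_option autoImplicit false
set_option linter.unusedSectionVars false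

noncomputable section

namespace Fermat.Agent.ProgramR.Forms

open Complex Filter Function Polynomial IsDedekindDomain Module
open UpperHalfPlane hiding I
open ModularForm EisensteinSeries MatrixGroups CongruenceSubgroup
open Fermat.Agent.ProgramR.LevelOne Fermat.Agent.ProgramR.CuspLocal Fermat.Agent.ProgramR.QExp
  Fermat.Agent.ProgramR.Alg
open scoped Real Topology Manifold

/-- the ring `B_N` of weakly holomorphic modular functions for `Γ₀(N)`. -/
abbrev BN (N : ℕ) : Type := ↥(WH0 (Gamma0 N))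

/-- its fraction field. -/
abbrev FN (N : ℕ) : Type := FF ℂ ((BN N))

variable (N : ℕ) [NeZero N]

/-- the dictionary clause at a finite point: `ord_z a = s · ord_P a`. -/
def FinClause [IsDedekindDomain (BN N)] (P : HeightOneSpectrum (BN N)) (z : ℍ) (s : ℕ) : Prop :=
  ∀ (a : (BN N)) (m : ℕ), a ∈ P.asIdeal ^ m → a ∉ P.asIdeal ^ (m + 1) →
    Hol.ordAt z (WH0.toHol (Gamma0 N) a) = ((m * s : ℕ) : ℕ∞)

/-- finite dictionary, primes to points. -/
def DFin [IsDedekindDomain (BN N)] : Prop :=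
  ∀ P : HeightOneSpectrum (BN N), ∃ (z : ℍ) (s : ℕ), 0 < s ∧ FinClause N P z s

/-- finite dictionary, points to primes. -/
def DFin' [IsDedekindDomain (BN N)] : Prop :=
  ∀ z : ℍ, ∃ (P : HeightOneSpectrum (BN N)) (s : ℕ), 0 < s ∧ FinClause N P z s

variable [IsDedekindDomain (BN N)] [Module.Finite ℂ[X] (BN N)]


/-- the dictionary clause at a cusp: `ord_g x = s · ord_Q x`. -/
def InfClause (Q : HeightOneSpectrum (Binf ℂ (BN N))) (g : SL(2, ℤ)) (s : ℕ) : Prop :=
  ∀ a b : (BN N), a ≠ 0 → b ≠ 0 →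
    (s : ℤ) * ordV Q (algebraMap (BN N) (FN N) a / algebraMap (BN N) (FN N) b) =
      (cuspExp N g a).order - (cuspExp N g b).order

/-- infinite dictionary, primes to cusps. -/
def DInf : Prop :=
  ∀ Q : HeightOneSpectrum (Binf ℂ (BN N)), ∃ (g : SL(2, ℤ)) (s : ℕ), 0 < s ∧ InfClause N Q g s

/-- infinite dictionary, cusps to primes. -/
def DInf' : Prop :=
  ∀ g : SL(2, ℤ), ∃ (Q : HeightOneSpectrum (Binf ℂ (BN N))) (s : ℕ), 0 < s ∧ InfClause N Q g s


/-! ### Basic elements -/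

/-- `j ∈ B_N`. -/
abbrev jB : BN N := WH0.j (Gamma0 N)

/-- `j (j - 1728) ∈ B_N`. -/
def dB : BN N := jB N * (jB N - algebraMap ℂ (BN N) 1728)

/-- `j - c ∈ B_N`. -/
def xcB (c : ℂ) : BN N := algebraMap ℂ[X] (BN N) (X - C c)

omit [NeZero N] in
lemma toHol_jB : WH0.toHol (Gamma0 N) (jB N) = jHol := rfl

omit [NeZero N] in
lemma toHol_dB : WH0.toHol (Gamma0 N) (dB N) = jHol * (jHol - algebraMap ℂ Hol 1728) := by
  rw [dB, map_mul, map_sub, AlgHom.commutes, toHol_jB]

omit [NeZero N] in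
lemma xcB_eq (c : ℂ) : xcB N c = jB N - algebraMap ℂ (BN N) c := by
  rw [xcB, WH0.algebraMap_poly, map_sub, aeval_X, aeval_C]

omit [NeZero N] in
lemma toHol_xcB (c : ℂ) : WH0.toHol (Gamma0 N) (xcB N c) = jHol - algebraMap ℂ Hol c := by
  rw [xcB_eq, map_sub, AlgHom.commutes, toHol_jB]

omit [NeZero N] in
lemma jHol_sub_ne_zero (c : ℂ) : jHol - algebraMap ℂ Hol c ≠ 0 := by
  intro h0
  obtain ⟨z, hz⟩ := jInv_surjective (c + 1)
  have : (jHol : ℍ → ℂ) z - c = 0 := congrArg (fun F : Hol => (F : ℍ → ℂ) z) h0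
  rw [jHol_apply, hz] at this
  simp at this

omit [NeZero N] in
lemma xcB_ne_zero (c : ℂ) : xcB N c ≠ 0 := by
  intro h0
  apply jHol_sub_ne_zero c
  rw [← toHol_xcB N, h0, map_zero]

omit [NeZero N] in
lemma jB_ne_zero : jB N ≠ 0 := by
  have := xcB_ne_zero N 0
  rwa [xcB_eq, map_zero, sub_zero] at this

omit [NeZero N] in
lemma dB_ne_zero : dB N ≠ 0 := by
  rw [dB]
  refine mul_ne_zero (jB_ne_zero N) ?_
  have := xcB_ne_zero N 1728
  rwa [xcB_eq] at this

omit [NeZero N] in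
lemma xF_eq : xF ℂ (FN N) = algebraMap (BN N) (FN N) (jB N) := by
  rw [xF, ← RatFunc.algebraMap_X, ← IsScalarTower.algebraMap_apply ℂ[X] (RatFunc ℂ) (FN N),
    IsScalarTower.algebraMap_apply ℂ[X] (BN N) (FN N), WH0.algebraMap_poly, aeval_X]

omit [NeZero N] in
lemma algebraMap_xcB (c : ℂ) :
    algebraMap (BN N) (FN N) (xcB N c) = xF ℂ (FN N) - algebraMap ℂ (FN N) c :=
  algebraMap_X_sub_C ℂ (FN N) (BN N) c

omit [NeZero N] [Module.Finite ℂ[X] (BN N)] in
/-- the dictionary clause, in terms of `ordV`. -/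
lemma FinClause.exists_ord {P : HeightOneSpectrum (BN N)} {z : ℍ} {s : ℕ}
    (hd : FinClause N P z s) {a : BN N} (ha : a ≠ 0) :
    ∃ m : ℕ, ordV P (algebraMap (BN N) (FN N) a) = (m : ℤ) ∧
      Hol.ordAt z (WH0.toHol (Gamma0 N) a) = ((m * s : ℕ) : ℕ∞) := by
  have h0 := ordV_algebraMap_nonneg (L := FN N) P ha
  obtain ⟨m, hm⟩ := Int.eq_ofNat_of_zero_le h0
  refine ⟨m, hm, hd a m ?_ ?_⟩
  · exact (le_ordV_algebraMap_iff (L := FN N) P ha m).mp (by rw [hm])
  · intro h
    have := (le_ordV_algebraMap_iff (L := FN N) P ha (m + 1)).mpr h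
    rw [hm] at this
    push_cast at this
    omega

/-- the linear map `f ↦ numB f`. -/
def numBLin : CuspForm (Gamma0 N) 2 →ₗ[ℂ] BN N where
  toFun := numB
  map_add' f g := by
    apply Subtype.ext
    funext z
    show numFun (f + g) z = numFun f z + numFun g z
    simp only [numFun, Pi.add_apply]
    ring
  map_smul' c f := by
    apply Subtype.ext
    funext z
    show numFun (c • f) z = c • numFun f z
    simp only [numFun, Pi.smul_apply, smul_eq_mul]
    ring

/-- the map `f ↦ numB f / (j (j - 1728))` into the function field. -/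
def phi : CuspForm (Gamma0 N) 2 →ₗ[ℂ] FN N :=
  (LinearMap.mulRight ℂ ((algebraMap (BN N) (FN N) (dB N))⁻¹)).comp
    ((IsScalarTower.toAlgHom ℂ (BN N) (FN N)).toLinearMap.comp (numBLin N))

lemma phi_apply (f : CuspForm (Gamma0 N) 2) :
    phi N f = algebraMap (BN N) (FN N) (numB f) / algebraMap (BN N) (FN N) (dB N) := by
  rw [div_eq_mul_inv]
  rfl

lemma cuspHol_eq_zero_iff (f : CuspForm (Gamma0 N) 2) : cuspHol f = 0 ↔ f = 0 := by
  constructor
  · intro h
    ext z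
    exact congrArg (fun F : Hol => (F : ℍ → ℂ) z) h
  · rintro rfl
    rfl

lemma numB_eq_zero_iff (f : CuspForm (Gamma0 N) 2) : numB f = 0 ↔ f = 0 := by
  constructor
  · intro h
    have h1 := numB_mul_kHol f
    rw [h, map_zero, zero_mul, mul_assoc, ← toHol_dB N] at h1
    have h2 : WH0.toHol (Gamma0 N) (dB N) ≠ 0 := fun h0 =>
      dB_ne_zero N (WH0.toHol_injective (Gamma0 N) (by rw [h0, map_zero]))
    exact (cuspHol_eq_zero_iff N f).mp ((mul_eq_zero.mp h1.symm).resolve_right h2)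
  · rintro rfl
    exact (numBLin N).map_zero

lemma phi_injective : Function.Injective (phi N) := by
  rw [← LinearMap.ker_eq_bot, LinearMap.ker_eq_bot']
  intro f hf
  rw [phi_apply, div_eq_zero_iff] at hf
  rcases hf with hf | hf
  · exact (numB_eq_zero_iff N f).mp ((IsFractionRing.injective (BN N) (FN N)) (by rw [hf, map_zero]))
  · exact absurd ((IsFractionRing.injective (BN N) (FN N)) (by rw [hf, map_zero])) (dB_ne_zero N)


/-! ### Part A: the image of `phi` satisfies the two conditions -/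

lemma algebraMap_FN_ne_zero {a : BN N} (ha : a ≠ 0) : algebraMap (BN N) (FN N) a ≠ 0 :=
  fun h => ha (IsFractionRing.injective (BN N) (FN N) (by rw [h, map_zero]))

/-- positivity of an integer from positivity of a positive multiple. -/
lemma one_le_of_mul_pos {s : ℕ} (hs : 0 < s) {x : ℤ} (h : 0 < (s : ℤ) * x) : 1 ≤ x := by
  by_contra hx
  push Not at hx
  have h1 : x ≤ 0 := by omega
  have h2 : (s : ℤ) * x ≤ 0 := mul_nonpos_of_nonneg_of_nonpos (by positivity) h1
  omega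

theorem finCond_phi (hD : DFin N) (f : CuspForm (Gamma0 N) 2) :
    FinCond ℂ (FN N) (BN N) (phi N f) := by
  intro P c hc
  by_cases hn : numB f = 0
  · rw [phi_apply, hn, map_zero, zero_div, zero_mul, map_zero]
    exact zero_lt_one
  have hf0 : cuspHol f ≠ 0 := fun h => hn ((numB_eq_zero_iff N f).mpr ((cuspHol_eq_zero_iff N f).mp h))
  obtain ⟨z, s, hs, hd⟩ := hD P
  rw [← algebraMap_xcB N c]
  have hx0 := xcB_ne_zero N c
  have hd0 := dB_ne_zero N
  have hιn := algebraMap_FN_ne_zero N hn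
  have hιx := algebraMap_FN_ne_zero N hx0
  have hιd := algebraMap_FN_ne_zero N hd0
  have hne : phi N f * algebraMap (BN N) (FN N) (xcB N c) ≠ 0 := by
    rw [phi_apply]
    exact mul_ne_zero (div_ne_zero hιn hιd) hιx
  rw [valuation_lt_one_iff P hne, phi_apply, div_eq_mul_inv,
    ordV_mul P (mul_ne_zero hιn (inv_ne_zero hιd)) hιx, ordV_mul P hιn (inv_ne_zero hιd), ordV_inv]
  obtain ⟨mn, hmn, hon⟩ := hd.exists_ord N hn
  obtain ⟨mx, hmx, hox⟩ := hd.exists_ord N hx0
  obtain ⟨md, hmd, hod⟩ := hd.exists_ord N hd0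
  rw [hmn, hmx, hmd]
  -- `x - c ∈ P` hence `1 ≤ mx` hence `j z = c`
  have hmx1 : 1 ≤ mx := by
    have h1 : xcB N c ∈ P.asIdeal ^ 1 := by rw [pow_one]; exact hc
    have := (le_ordV_algebraMap_iff (L := FN N) P hx0 1).mpr h1
    rw [hmx] at this
    exact_mod_cast this
  have hjz : jInv z = c := by
    have h1 : Hol.ordAt z (WH0.toHol (Gamma0 N) (xcB N c)) ≠ 0 := by
      rw [hox]
      have : 0 < mx * s := Nat.mul_pos hmx1 hs
      exact_mod_cast this.ne'
    rw [Ne, Hol.ordAt_eq_zero_iff, not_not, toHol_xcB] at h1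
    have h2 : (jHol : ℍ → ℂ) z - c = 0 := h1
    rw [jHol_apply] at h2
    exact sub_eq_zero.mp h2
  -- orders in `Hol`
  have hk : Hol.ordAt z kHol + 1 = ((mx * s : ℕ) : ℕ∞) := by
    rw [← hox, toHol_xcB, ← hjz, ordAt_jHol_sub_eq_kHol]
  have hI1 := congrArg (Hol.ordAt z) (numB_mul_kHol f)
  rw [mul_assoc, ← toHol_dB N, Hol.ordAt_mul, Hol.ordAt_mul, hon, hod] at hI1
  -- `md s ≤ mn s + ord K`, so `md s + 1 ≤ mn s + mx s`
  have h3 : ((md * s : ℕ) : ℕ∞) + 1 ≤ ((mn * s : ℕ) : ℕ∞) + ((mx * s : ℕ) : ℕ∞) := by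
    rw [← hk, ← add_assoc, hI1]
    gcongr
    exact le_add_self
  have h4 : md * s + 1 ≤ mn * s + mx * s := by exact_mod_cast h3
  have h5 : md < mn + mx := by
    by_contra hlt
    push Not at hlt
    have : (mn + mx) * s ≤ md * s := Nat.mul_le_mul_right s hlt
    nlinarith
  omega


omit [NeZero N] [IsDedekindDomain (BN N)] [Module.Finite ℂ[X] (BN N)] in
lemma order_eq_of_coeff {L : LaurentSeries ℂ} {m : ℤ} (hm : L.coeff m ≠ 0)
    (h : ∀ n : ℤ, n < m → L.coeff n = 0) : L.order = m := by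
  have hL : L ≠ 0 := by
    intro h0
    rw [h0] at hm
    simp at hm
  exact le_antisymm (HahnSeries.order_le_of_coeff_ne_zero hm) (le_order_of_forall_coeff hL h)

omit [IsDedekindDomain (BN N)] [Module.Finite ℂ[X] (BN N)] in
lemma order_cuspExp_jB (g : SL(2, ℤ)) : (cuspExp N g (jB N)).order = -(N : ℤ) :=
  cuspExp_jInv_order N g

omit [IsDedekindDomain (BN N)] [Module.Finite ℂ[X] (BN N)] in
lemma order_cuspExp_jB_sub (g : SL(2, ℤ)) (c : ℂ) :
    (cuspExp N g (jB N - algebraMap ℂ (BN N) c)).order = -(N : ℤ) := by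
  have hN : (0 : ℤ) < N := by exact_mod_cast NeZero.pos N
  apply order_eq_of_coeff
  · rw [map_sub, cuspExp_algebraMap, HahnSeries.coeff_sub]
    have h1 : (cuspExp N g (jB N)).coeff (-(N : ℤ)) = 1 := cuspExp_jInv_coeff N g
    have h2 : (HahnSeries.C c : LaurentSeries ℂ).coeff (-(N : ℤ)) = 0 := by
      rw [HahnSeries.C_apply, HahnSeries.coeff_single_of_ne]
      omega
    rw [h1, h2, sub_zero]
    exact one_ne_zero
  · intro n hn
    rw [map_sub, cuspExp_algebraMap, HahnSeries.coeff_sub]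
    have h1 : (cuspExp N g (jB N)).coeff n = 0 := cuspExp_jInv_coeff_of_lt N g hn
    have h2 : (HahnSeries.C c : LaurentSeries ℂ).coeff n = 0 := by
      rw [HahnSeries.C_apply, HahnSeries.coeff_single_of_ne]
      omega
    rw [h1, h2, sub_zero]

omit [IsDedekindDomain (BN N)] [Module.Finite ℂ[X] (BN N)] in
lemma cuspExp_ne_zero (g : SL(2, ℤ)) {a : BN N} (ha : a ≠ 0) : cuspExp N g a ≠ 0 :=
  fun h0 => ha (cuspExp_injective N g (by rw [h0, map_zero]))

omit [IsDedekindDomain (BN N)] [Module.Finite ℂ[X] (BN N)] in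
lemma order_cuspExp_mul (g : SL(2, ℤ)) {a b : BN N} (ha : a ≠ 0) (hb : b ≠ 0) :
    (cuspExp N g (a * b)).order = (cuspExp N g a).order + (cuspExp N g b).order := by
  rw [map_mul, HahnSeries.order_mul (cuspExp_ne_zero N g ha) (cuspExp_ne_zero N g hb)]

theorem infCond_phi (hD : DInf N) (f : CuspForm (Gamma0 N) 2) :
    InfCond ℂ (FN N) (Binf ℂ (BN N)) (phi N f) := by
  intro Q
  by_cases hn : numB f = 0
  · rw [phi_apply, hn, map_zero, zero_div, zero_mul, map_zero]
    exact zero_lt_one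
  obtain ⟨g, s, hs, hd⟩ := hD Q
  have hj0 := jB_ne_zero N
  have hd0 := dB_ne_zero N
  have hιn := algebraMap_FN_ne_zero N hn
  have hιj := algebraMap_FN_ne_zero N hj0
  have hιd := algebraMap_FN_ne_zero N hd0
  have e : phi N f * xF ℂ (FN N) =
      algebraMap (BN N) (FN N) (numB f * jB N) / algebraMap (BN N) (FN N) (dB N) := by
    rw [phi_apply, xF_eq, map_mul]
    ring
  have hne : phi N f * xF ℂ (FN N) ≠ 0 := by
    rw [e, map_mul]
    exact div_ne_zero (mul_ne_zero hιn hιj) hιd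
  rw [valuation_lt_one_iff Q hne]
  apply one_le_of_mul_pos hs
  have hsub : jB N - algebraMap ℂ (BN N) 1728 ≠ 0 := by
    have := xcB_ne_zero N 1728
    rwa [xcB_eq] at this
  rw [e, hd _ _ (mul_ne_zero hn hj0) hd0, order_cuspExp_mul N g hn hj0, dB,
    order_cuspExp_mul N g hj0 hsub, order_cuspExp_jB, order_cuspExp_jB_sub]
  have h1 := one_sub_le_order_cuspExp_numB N f g hn
  omega


/-! ### Part B: surjectivity -/

omit [NeZero N] [IsDedekindDomain (BN N)] [Module.Finite ℂ[X] (BN N)] in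
lemma toHol_ne_zero {a : BN N} (ha : a ≠ 0) : WH0.toHol (Gamma0 N) a ≠ 0 :=
  fun h0 => ha (WH0.toHol_injective (Gamma0 N) (by rw [h0, map_zero]))

/-- B1: the finite condition gives divisibility data in `Hol`. -/
lemma ordAt_le_of_finCond (hD' : DFin' N) {a b : BN N} (ha : a ≠ 0) (hb : b ≠ 0)
    (hfin : FinCond ℂ (FN N) (BN N) (algebraMap (BN N) (FN N) a / algebraMap (BN N) (FN N) b))
    (z : ℍ) :
    Hol.ordAt z (WH0.toHol (Gamma0 N) b) ≤ Hol.ordAt z (WH0.toHol (Gamma0 N) a * kHol) := by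
  obtain ⟨P, s, hs, hd⟩ := hD' z
  set c := jInv z with hc
  have hx0 := xcB_ne_zero N c
  obtain ⟨ma, hma, hoa⟩ := hd.exists_ord N ha
  obtain ⟨mb, hmb, hob⟩ := hd.exists_ord N hb
  obtain ⟨mx, hmx, hox⟩ := hd.exists_ord N hx0
  obtain ⟨nk, hnk⟩ := ENat.ne_top_iff_exists.mp (Hol.ordAt_ne_top z kHol_ne_zero)
  have hk : nk + 1 = mx * s := by
    have h1 : Hol.ordAt z kHol + 1 = ((mx * s : ℕ) : ℕ∞) := by
      rw [← hox, toHol_xcB, hc, ordAt_jHol_sub_eq_kHol]
    rw [← hnk] at h1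
    exact_mod_cast h1
  have hmx1 : 1 ≤ mx := by
    rcases Nat.eq_zero_or_pos mx with h0 | h0
    · rw [h0, zero_mul] at hk; omega
    · exact h0
  have hxP : algebraMap ℂ[X] (BN N) (X - C c) ∈ P.asIdeal := by
    have := (le_ordV_algebraMap_iff (L := FN N) P hx0 1).mp (by rw [hmx]; exact_mod_cast hmx1)
    rwa [pow_one] at this
  have h1 := hfin P c hxP
  rw [← algebraMap_xcB N c] at h1
  have hιa := algebraMap_FN_ne_zero N ha
  have hιb := algebraMap_FN_ne_zero N hb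
  have hιx := algebraMap_FN_ne_zero N hx0
  have hne : algebraMap (BN N) (FN N) a / algebraMap (BN N) (FN N) b *
      algebraMap (BN N) (FN N) (xcB N c) ≠ 0 := mul_ne_zero (div_ne_zero hιa hιb) hιx
  rw [valuation_lt_one_iff P hne, div_eq_mul_inv,
    ordV_mul P (mul_ne_zero hιa (inv_ne_zero hιb)) hιx, ordV_mul P hιa (inv_ne_zero hιb),
    ordV_inv, hma, hmb, hmx] at h1
  have h2 : mb + 1 ≤ ma + mx := by omega
  have h3 : (mb + 1) * s ≤ (ma + mx) * s := Nat.mul_le_mul_right s h2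
  rw [Hol.ordAt_mul, hoa, hob, ← hnk]
  have h4 : mb * s ≤ ma * s + nk := by nlinarith
  exact_mod_cast h4

/-- B4 input: the condition at infinity gives the order gap at every cusp. -/
lemma order_gap_of_infCond (hI' : DInf' N) {a b : BN N} (ha : a ≠ 0) (hb : b ≠ 0)
    (hinf : InfCond ℂ (FN N) (Binf ℂ (BN N))
      (algebraMap (BN N) (FN N) a / algebraMap (BN N) (FN N) b)) (g : SL(2, ℤ)) :
    (cuspExp N g b).order + N + 1 ≤ (cuspExp N g a).order := by
  obtain ⟨Q, s, hs, hd⟩ := hI' g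
  have h1 := hinf Q
  have hj0 := jB_ne_zero N
  have hιa := algebraMap_FN_ne_zero N ha
  have hιb := algebraMap_FN_ne_zero N hb
  have hιj := algebraMap_FN_ne_zero N hj0
  have e : algebraMap (BN N) (FN N) a / algebraMap (BN N) (FN N) b * xF ℂ (FN N) =
      algebraMap (BN N) (FN N) (a * jB N) / algebraMap (BN N) (FN N) b := by
    rw [xF_eq, map_mul]
    ring
  have hne : algebraMap (BN N) (FN N) a / algebraMap (BN N) (FN N) b * xF ℂ (FN N) ≠ 0 := by
    rw [e, map_mul]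
    exact div_ne_zero (mul_ne_zero hιa hιj) hιb
  rw [valuation_lt_one_iff Q hne, e] at h1
  have h2 := hd (a * jB N) b (mul_ne_zero ha hj0) hb
  rw [order_cuspExp_mul N g ha hj0, order_cuspExp_jB] at h2
  have h3 : (s : ℤ) * 1 ≤ (s : ℤ) * ordV Q (algebraMap (BN N) (FN N) (a * jB N) /
      algebraMap (BN N) (FN N) b) := mul_le_mul_of_nonneg_left h1 (by positivity)
  have h4 : (1 : ℤ) ≤ s := by exact_mod_cast hs
  omega

/-- B3: weight-2 invariance of the quotient. -/
lemma slash_eq_of_mul_eq {a b : BN N} (hb : b ≠ 0) {F : Hol}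
    (hmul : WH0.toHol (Gamma0 N) b * F = WH0.toHol (Gamma0 N) a * kHol) {γ : SL(2, ℤ)}
    (hγ : γ ∈ Gamma0 N) : (F : ℍ → ℂ) ∣[(2 : ℤ)] γ = F := by
  set G : Hol := ⟨(F : ℍ → ℂ) ∣[(2 : ℤ)] γ, F.2.slash 2 (γ : GL (Fin 2) ℝ)⟩ with hG
  have h0 : WH0.toHol (Gamma0 N) b * (G - F) = 0 := by
    apply Hol.ext
    intro z
    have h1 := congrArg (fun H : Hol => (H : ℍ → ℂ) (γ • z)) hmul
    have h2 := congrArg (fun H : Hol => (H : ℍ → ℂ) z) hmul
    simp only [Subring.coe_mul, Pi.mul_apply, WH0.toHol_apply] at h1 h2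
    rw [kHol_smul, (mem_WH0.mp a.2).smul_eq γ hγ z, (mem_WH0.mp b.2).smul_eq γ hγ z] at h1
    show b.1 z * (((F : ℍ → ℂ) ∣[(2 : ℤ)] γ) z - (F : ℍ → ℂ) z) = 0
    rw [SL_slash_apply]
    have hd : denom γ z ≠ 0 := denom_ne_zero _ _
    have e : (denom (Matrix.SpecialLinearGroup.toGL
        ((Matrix.SpecialLinearGroup.map (Int.castRingHom ℝ)) γ)) (z : ℂ)) = denom γ z := rfl
    rw [e, zpow_neg, show ((2 : ℤ)) = ((2 : ℕ) : ℤ) from rfl, zpow_natCast]
    field_simp
    linear_combination h1 - denom γ z ^ 2 * h2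
  have h3 := (mul_eq_zero.mp h0).resolve_left (toHol_ne_zero N hb)
  have h4 : G = F := sub_eq_zero.mp h3
  exact congrArg (fun H : Hol => (H : ℍ → ℂ)) h4

theorem exists_phi_eq (hD' : DFin' N) (hI' : DInf' N) {h : FN N}
    (hfin : FinCond ℂ (FN N) (BN N) h) (hinf : InfCond ℂ (FN N) (Binf ℂ (BN N)) h) :
    ∃ f : CuspForm (Gamma0 N) 2, phi N f = h := by
  obtain ⟨a, b, hb, rfl⟩ := IsFractionRing.div_surjective (A := BN N) h
  have hb0 : b ≠ 0 := nonZeroDivisors.ne_zero hb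
  by_cases ha : a = 0
  · exact ⟨0, by rw [map_zero, ha, map_zero, zero_div]⟩
  obtain ⟨F, hF⟩ := Hol.dvd_of_forall_ordAt_le (toHol_ne_zero N hb0)
    (ordAt_le_of_finCond N hD' ha hb0 hfin)
  have hmul : WH0.toHol (Gamma0 N) b * F = WH0.toHol (Gamma0 N) a * kHol := hF.symm
  have hinv : ∀ γ ∈ Gamma0 N, (F : ℍ → ℂ) ∣[(2 : ℤ)] γ = F :=
    fun γ hγ => slash_eq_of_mul_eq N hb0 hmul hγ
  have hzero : ∀ γ : SL(2, ℤ), IsZeroAtImInfty ((F : ℍ → ℂ) ∣[(2 : ℤ)] γ) := fun γ =>
    isZeroAtImInfty_slash_of_mul_eq N hb0 hmul γ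
      (Or.inr (order_gap_of_infCond N hI' ha hb0 hinf γ⁻¹))
  refine ⟨cuspFormOfHol N F hinv hzero, ?_⟩
  set f := cuspFormOfHol N F hinv hzero with hf
  have hfF : cuspHol f = F := Subtype.ext rfl
  rw [phi_apply, div_eq_div_iff (algebraMap_FN_ne_zero N (dB_ne_zero N))
    (algebraMap_FN_ne_zero N hb0), ← map_mul, ← map_mul]
  congr 1
  apply WH0.toHol_injective (Gamma0 N)
  rw [map_mul, map_mul]
  apply mul_right_cancel₀ kHol_ne_zero
  have h1 := numB_mul_kHol f
  rw [hfF, mul_assoc, ← toHol_dB N] at h1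
  calc WH0.toHol (Gamma0 N) (numB f) * WH0.toHol (Gamma0 N) b * kHol
      = (WH0.toHol (Gamma0 N) (numB f) * kHol) * WH0.toHol (Gamma0 N) b := by ring
    _ = (F * WH0.toHol (Gamma0 N) (dB N)) * WH0.toHol (Gamma0 N) b := by rw [h1]
    _ = (WH0.toHol (Gamma0 N) b * F) * WH0.toHol (Gamma0 N) (dB N) := by ring
    _ = WH0.toHol (Gamma0 N) a * WH0.toHol (Gamma0 N) (dB N) * kHol := by rw [hmul]; ring

/-- **R7**: the space of weight-2 cusp forms on `Γ₀(N)` has the dimension of the space of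
holomorphic differentials `W = {h | FinCond h ∧ InfCond h}` of the function field of `B_N`. -/
theorem finrank_cuspForm_eq_finrank (hD : DFin N) (hD' : DFin' N) (hI : DInf N) (hI' : DInf' N)
    (W : Submodule ℂ (FN N))
    (hW : ∀ h, h ∈ W ↔ FinCond ℂ (FN N) (BN N) h ∧ InfCond ℂ (FN N) (Binf ℂ (BN N)) h) :
    finrank ℂ (CuspForm (Gamma0 N) 2) = finrank ℂ W := by
  have hrange : LinearMap.range (phi N) = W := by
    ext h
    rw [LinearMap.mem_range, hW]
    constructor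
    · rintro ⟨f, rfl⟩
      exact ⟨finCond_phi N hD f, infCond_phi N hI f⟩
    · rintro ⟨h1, h2⟩
      exact exists_phi_eq N hD' hI' h1 h2
  rw [← hrange]
  exact (LinearMap.finrank_range_of_inj (phi_injective N)).symm

end Fermat.Agent.ProgramR.Forms
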