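/-
Program R, package R7-fin (helper1): from the finite-chart condition `FinCond` of Theorem A to a
holomorphic weight-2 function.  For `h = a / b` in the function field of `B_N = WH0 Γ₀(N)`,
`FinCond h` implies `ord_z b ≤ ord_z (a · K)` at every `z`, hence `b · F = a · K` for some
holomorphic `F`; such an `F` is weight-2 invariant under `Γ₀(N)`, unique, additive in `h`.
-/
import Fermat.Agent.ProgramR.Analytic.Gamma0Dict
import Fermat.Agent.ProgramR.Forms.CuspCond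
import Fermat.Agent.ProgramR.Alg.Setup

set_option autoImplicit false

noncomputable section

namespace Fermat.Agent.ProgramR.Forms.FinHol

open UpperHalfPlane Polynomial Module CongruenceSubgroup IsDedekindDomain ModularForm
open Fermat.Agent.ProgramR.LevelOne
open scoped Manifold MatrixGroups

attribute [local instance] Genus.cosetFintype

variable (N : ℕ) [NeZero N]

/-- `X - C c` maps to `j - c` in `Hol`. -/
lemma toHol_algebraMap_X_sub_C (c : ℂ) :
    WH0.toHol (Gamma0 N) (algebraMap ℂ[X] (WH0 (Gamma0 N)) (X - C c)) =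
      jHol - algebraMap ℂ Hol c := by
  apply Hol.ext
  intro z
  rw [WH0.toHol_apply, WH0.algebraMap_poly_apply]
  simp [Hol.algebraMap_apply]

lemma toHol_ne_zero {a : WH0 (Gamma0 N)} (ha : a ≠ 0) : WH0.toHol (Gamma0 N) a ≠ 0 :=
  fun h => ha (WH0.toHol_injective (Gamma0 N) (by rw [h, map_zero]))

/-- **R7-fin, order inequality.**  If `h = a / b` satisfies the finite-chart condition, then
`ord_z b ≤ ord_z (a · K)` for every `z ∈ ℍ`. -/
theorem ordAt_le_of_finCond (h : Alg.FF ℂ (WH0 (Gamma0 N)))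
    (hh : Alg.FinCond ℂ (Alg.FF ℂ (WH0 (Gamma0 N))) (WH0 (Gamma0 N)) h)
    (a b : WH0 (Gamma0 N)) (hb : b ≠ 0)
    (hab : h = algebraMap (WH0 (Gamma0 N)) (Alg.FF ℂ (WH0 (Gamma0 N))) a /
      algebraMap (WH0 (Gamma0 N)) (Alg.FF ℂ (WH0 (Gamma0 N))) b) (z : ℍ) :
    Hol.ordAt z (WH0.toHol (Gamma0 N) b) ≤ Hol.ordAt z (WH0.toHol (Gamma0 N) a * kHol) := by
  by_cases ha : a = 0
  · rw [ha, map_zero, zero_mul, (Hol.ordAt_eq_top_iff z 0).2 rfl]
    exact le_top
  obtain ⟨P, s, hs, hP, hord⟩ :=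
    exists_prime_ordAt_eq (L := Alg.FF ℂ (WH0 (Gamma0 N))) N z
  set ι := algebraMap (WH0 (Gamma0 N)) (Alg.FF ℂ (WH0 (Gamma0 N))) with hι
  set c := jInv z with hc
  set u := algebraMap ℂ[X] (WH0 (Gamma0 N)) (X - C c) with hu
  have huP : u ∈ P.asIdeal := by
    rw [hP, hu, WH0.algebraMap_poly_apply]
    simp [hc]
  have hu0 : u ≠ 0 := by
    rw [hu, Ne, map_eq_zero_iff _ (WH0.algebraMap_poly_injective (Gamma0 N))]
    exact Polynomial.X_sub_C_ne_zero c
  have hιinj : Function.Injective ι := IsFractionRing.injective _ _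
  have hιa : ι a ≠ 0 := fun h0 => ha (hιinj (by rw [h0, map_zero]))
  have hιb : ι b ≠ 0 := fun h0 => hb (hιinj (by rw [h0, map_zero]))
  have hιu : ι u ≠ 0 := fun h0 => hu0 (hιinj (by rw [h0, map_zero]))
  have hval := hh P c huP
  rw [← Alg.algebraMap_X_sub_C ℂ (Alg.FF ℂ (WH0 (Gamma0 N))) (WH0 (Gamma0 N)) c] at hval
  change P.valuation (Alg.FF ℂ (WH0 (Gamma0 N))) (h * ι u) < 1 at hval
  have hne : h * ι u ≠ 0 := by
    rw [hab]
    exact mul_ne_zero (div_ne_zero hιa hιb) hιu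
  rw [Alg.valuation_lt_one_iff P hne, hab, div_eq_mul_inv,
    Alg.ordV_mul P (mul_ne_zero hιa (inv_ne_zero hιb)) hιu,
    Alg.ordV_mul P hιa (inv_ne_zero hιb), Alg.ordV_inv] at hval
  have na := Alg.ordV_algebraMap_nonneg (L := Alg.FF ℂ (WH0 (Gamma0 N))) P ha
  have nb := Alg.ordV_algebraMap_nonneg (L := Alg.FF ℂ (WH0 (Gamma0 N))) P hb
  have nu := Alg.ordV_algebraMap_nonneg (L := Alg.FF ℂ (WH0 (Gamma0 N))) P hu0
  have ea := hord a ha
  have eb := hord b hb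
  have eu := hord u hu0
  rw [hu, toHol_algebraMap_X_sub_C, hc, ordAt_jHol_sub_eq_kHol] at eu
  rw [Hol.ordAt_mul, ea, eb]
  -- all orders are finite
  have hK : Hol.ordAt z kHol ≠ ⊤ := by
    intro htop
    rw [htop] at eu
    exact ENat.coe_ne_top _ eu.symm
  obtain ⟨κ, hκ⟩ := ENat.ne_top_iff_exists.1 hK
  rw [← hκ] at eu ⊢
  have eu' : κ + 1 = s * (Alg.ordV P (ι u)).toNat := by exact_mod_cast eu
  set α := (Alg.ordV P (ι a)).toNat with hα
  set β := (Alg.ordV P (ι b)).toNat with hβ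
  set υ := (Alg.ordV P (ι u)).toNat with hυ
  have hα' : (α : ℤ) = Alg.ordV P (ι a) := Int.toNat_of_nonneg na
  have hβ' : (β : ℤ) = Alg.ordV P (ι b) := Int.toNat_of_nonneg nb
  have hυ' : (υ : ℤ) = Alg.ordV P (ι u) := Int.toNat_of_nonneg nu
  have key : β + 1 ≤ α + υ := by
    have : (β : ℤ) + 1 ≤ α + υ := by rw [hα', hβ', hυ']; linarith
    exact_mod_cast this
  have key2 : s * β + 1 ≤ s * α + (κ + 1) := by
    rw [eu']
    calc s * β + 1 ≤ s * β + s := by omega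
      _ = s * (β + 1) := by ring
      _ ≤ s * (α + υ) := Nat.mul_le_mul_left s key
      _ = s * α + s * υ := by ring
  have key3 : s * β ≤ s * α + κ := by omega
  exact_mod_cast key3

/-- **R7-fin.**  If `h = a / b` satisfies the finite-chart condition then `b · F = a · K` for a
holomorphic function `F` on `ℍ`. -/
theorem exists_hol_of_finCond (h : Alg.FF ℂ (WH0 (Gamma0 N)))
    (hh : Alg.FinCond ℂ (Alg.FF ℂ (WH0 (Gamma0 N))) (WH0 (Gamma0 N)) h)
    (a b : WH0 (Gamma0 N)) (hb : b ≠ 0)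
    (hab : h = algebraMap (WH0 (Gamma0 N)) (Alg.FF ℂ (WH0 (Gamma0 N))) a /
      algebraMap (WH0 (Gamma0 N)) (Alg.FF ℂ (WH0 (Gamma0 N))) b) :
    ∃ Fh : Hol, WH0.toHol (Gamma0 N) b * Fh = WH0.toHol (Gamma0 N) a * kHol := by
  obtain ⟨Fh, hFh⟩ := Hol.dvd_of_forall_ordAt_le (toHol_ne_zero N hb)
    (ordAt_le_of_finCond N h hh a b hb hab)
  exact ⟨Fh, hFh.symm⟩

/-- `z ↦ (cz+d)^2` as an element of `Hol`. -/
def denomSqHol (γ : SL(2, ℤ)) : Hol :=
  ⟨fun z => denom γ z ^ 2, by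
    have h := UpperHalfPlane.mdifferentiable_denom (γ : GL (Fin 2) ℝ)
    exact h.pow 2⟩

@[simp] lemma denomSqHol_apply (γ : SL(2, ℤ)) (z : ℍ) :
    (denomSqHol γ : ℍ → ℂ) z = denom γ z ^ 2 := rfl

/-- A solution `F` of `b · F = a · K` (`a, b` invariant under `Γ₀(N)`) satisfies
`F (γ z) = (cz+d)^2 F z` for `γ ∈ Γ₀(N)`. -/
theorem slComp_eq_of_mul_eq {a b : WH0 (Gamma0 N)} (hb : b ≠ 0) {Fh : Hol}
    (hmul : WH0.toHol (Gamma0 N) b * Fh = WH0.toHol (Gamma0 N) a * kHol)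
    (γ : SL(2, ℤ)) (hγ : γ ∈ Gamma0 N) : Hol.slComp γ Fh = denomSqHol γ * Fh := by
  have hb' := toHol_ne_zero N hb
  apply mul_left_cancel₀ hb'
  apply Hol.ext
  intro z
  have h1 := congrArg (fun G : Hol => (G : ℍ → ℂ) (γ • z)) hmul
  have h2 := congrArg (fun G : Hol => (G : ℍ → ℂ) z) hmul
  simp only [Subring.coe_mul, Pi.mul_apply, WH0.toHol_apply] at h1 h2
  rw [kHol_smul, (mem_WH0.mp b.2).smul_eq γ hγ z, (mem_WH0.mp a.2).smul_eq γ hγ z] at h1
  simp only [Subring.coe_mul, Pi.mul_apply, WH0.toHol_apply, Hol.slComp_apply, denomSqHol_apply]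
  rw [h1]
  linear_combination (denom γ z ^ 2) * (-h2)

/-- A solution `F` of `b · F = a · K` is weight-2 slash invariant under `Γ₀(N)`. -/
theorem slash_eq_of_mul_eq {a b : WH0 (Gamma0 N)} (hb : b ≠ 0) {Fh : Hol}
    (hmul : WH0.toHol (Gamma0 N) b * Fh = WH0.toHol (Gamma0 N) a * kHol)
    (γ : SL(2, ℤ)) (hγ : γ ∈ Gamma0 N) : (Fh : ℍ → ℂ) ∣[(2 : ℤ)] γ = Fh := by
  funext z
  have hd : denom γ z ≠ 0 := denom_ne_zero _ _
  rw [SL_slash_apply]
  have e : (denom (Matrix.SpecialLinearGroup.toGL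
      ((Matrix.SpecialLinearGroup.map (Int.castRingHom ℝ)) γ)) (z : ℂ)) = denom γ z := rfl
  rw [e, zpow_neg, show ((2 : ℤ)) = ((2 : ℕ) : ℤ) from rfl, zpow_natCast]
  have h := congrArg (fun G : Hol => (G : ℍ → ℂ) z) (slComp_eq_of_mul_eq N hb hmul γ hγ)
  simp only [Subring.coe_mul, Pi.mul_apply, Hol.slComp_apply, denomSqHol_apply] at h
  rw [h]
  field_simp

/-- Uniqueness: two solutions of `b · F = a · K` for the same fraction agree. -/
theorem eq_of_mul_eq_of_mul_eq {a b a' b' : WH0 (Gamma0 N)} (hb : b ≠ 0) (hb' : b' ≠ 0)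
    (hfrac : a * b' = a' * b) {F₁ F₂ : Hol}
    (h1 : WH0.toHol (Gamma0 N) b * F₁ = WH0.toHol (Gamma0 N) a * kHol)
    (h2 : WH0.toHol (Gamma0 N) b' * F₂ = WH0.toHol (Gamma0 N) a' * kHol) : F₁ = F₂ := by
  have hbb : WH0.toHol (Gamma0 N) b * WH0.toHol (Gamma0 N) b' ≠ 0 :=
    mul_ne_zero (toHol_ne_zero N hb) (toHol_ne_zero N hb')
  apply mul_left_cancel₀ hbb
  have hf := congrArg (WH0.toHol (Gamma0 N)) hfrac
  rw [map_mul, map_mul] at hf
  linear_combination (WH0.toHol (Gamma0 N) b') * h1 - (WH0.toHol (Gamma0 N) b) * h2 + kHol * hf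

/-- Additivity of the solutions. -/
theorem add_mul_eq {a b a' b' : WH0 (Gamma0 N)} {F₁ F₂ : Hol}
    (h1 : WH0.toHol (Gamma0 N) b * F₁ = WH0.toHol (Gamma0 N) a * kHol)
    (h2 : WH0.toHol (Gamma0 N) b' * F₂ = WH0.toHol (Gamma0 N) a' * kHol) :
    WH0.toHol (Gamma0 N) (b * b') * (F₁ + F₂) =
      WH0.toHol (Gamma0 N) (a * b' + a' * b) * kHol := by
  simp only [map_mul, map_add]
  linear_combination (WH0.toHol (Gamma0 N) b') * h1 + (WH0.toHol (Gamma0 N) b) * h2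

/-- Scalar multiples of solutions. -/
theorem smul_mul_eq {a b : WH0 (Gamma0 N)} {F₁ : Hol} (c : ℂ)
    (h1 : WH0.toHol (Gamma0 N) b * F₁ = WH0.toHol (Gamma0 N) a * kHol) :
    WH0.toHol (Gamma0 N) b * (c • F₁) = WH0.toHol (Gamma0 N) (c • a) * kHol := by
  rw [map_smul, mul_smul_comm, h1, smul_mul_assoc]

/-- If the solution vanishes, so does the numerator. -/
theorem eq_zero_of_mul_eq_zero {a b : WH0 (Gamma0 N)}
    (h1 : WH0.toHol (Gamma0 N) b * 0 = WH0.toHol (Gamma0 N) a * kHol) : a = 0 := by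
  rw [mul_zero] at h1
  rcases mul_eq_zero.1 h1.symm with h | h
  · exact WH0.toHol_injective (Gamma0 N) (by rw [h, map_zero])
  · exact absurd h kHol_ne_zero

end Fermat.Agent.ProgramR.Forms.FinHol
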