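/-
Program R, package R7 (helper3): the weight-0 numerator `f·E₄·E₆/Δ` of a weight-2 cusp form.
-/
import Fermat.Agent.ProgramR.Defs
import Fermat.Agent.ProgramR.LevelOne.Ramanujan

set_option autoImplicit false

noncomputable section

namespace Fermat.Agent.ProgramR.Forms

open UpperHalfPlane ModularForm EisensteinSeries MatrixGroups CongruenceSubgroup Filter Topology
open Fermat.Agent.ProgramR.LevelOne
open scoped Manifold

local notation "Δ" => ModularForm.discriminant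

/-- the weight-0 function `f·E₄·E₆/Δ` attached to a weight-2 function `f`. -/
def numFun (f : ℍ → ℂ) (z : ℍ) : ℂ := f z * E₄ z * E₆ z / Δ z

lemma numFun_smul_eq_numFun_slash (f : ℍ → ℂ) (g : SL(2, ℤ)) (z : ℍ) :
    numFun f (g • z) = numFun (f ∣[(2 : ℤ)] g) z := by
  have hd : denom g z ≠ 0 := denom_ne_zero _ _
  have hΔ : Δ z ≠ 0 := discriminant_ne_zero z
  rw [numFun, numFun, discriminant_smul, E₄_smul, E₆_smul, ModularForm.SL_slash_apply]
  rw [show (-(2 : ℤ)) = -2 from rfl]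
  have h12 : denom g z ^ (12 : ℤ) = denom g z ^ (4 : ℤ) * denom g z ^ (6 : ℤ) *
      denom g z ^ (2 : ℤ) := by
    rw [← zpow_add₀ hd, ← zpow_add₀ hd]; norm_num
  rw [h12, zpow_neg]
  field_simp

variable {N : ℕ} [NeZero N]

lemma cuspForm_slash_isZeroAtImInfty (f : CuspForm (Gamma0 N) 2) (g : SL(2, ℤ)) :
    IsZeroAtImInfty ((f : ℍ → ℂ) ∣[(2 : ℤ)] g) := by
  have hc : IsCusp ((Matrix.SpecialLinearGroup.mapGL ℝ g) • (OnePoint.infty : OnePoint ℝ))
      (Subgroup.map (Matrix.SpecialLinearGroup.mapGL ℝ) (Gamma0 N)) := by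
    rw [Subgroup.IsArithmetic.isCusp_iff_isCusp_SL2Z, isCusp_SL2Z_iff']
    exact ⟨g, rfl⟩
  exact f.zero_at_cusps' hc _ rfl

lemma numFun_smul_of_mem (f : CuspForm (Gamma0 N) 2) {γ : SL(2, ℤ)} (hγ : γ ∈ Gamma0 N)
    (z : ℍ) : numFun f (γ • z) = numFun f z := by
  rw [numFun_smul_eq_numFun_slash]
  have : ((f : ℍ → ℂ) ∣[(2 : ℤ)] γ) = f :=
    SlashInvariantForm.slash_action_eqn f _ ⟨γ, hγ, rfl⟩
  rw [this]

lemma mdifferentiable_numFun {f : ℍ → ℂ} (hf : MDiff f) : MDiff (numFun f) := by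
  have h : MDiff (fun z ↦ (f z * E₄ z * E₆ z) / CuspForm.discriminant z) :=
    ((hf.mul E₄.holo').mul E₆.holo').div CuspForm.discriminant.holo' discriminant_ne_zero
  exact h

/-- the numerator of a cusp form of weight 2 is a weakly holomorphic modular function. -/
theorem isWH0_numFun (f : CuspForm (Gamma0 N) 2) : IsWH0 (Gamma0 N) (numFun f) where
  mdiff := mdifferentiable_numFun f.holo'
  smul_eq := fun γ hγ z => numFun_smul_of_mem f hγ z
  exists_bdd := ⟨1, fun g => by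
    have h1 : IsBoundedAtImInfty ((f : ℍ → ℂ) ∣[(2 : ℤ)] g) :=
      (cuspForm_slash_isZeroAtImInfty f g).isBoundedAtImInfty
    have h4 : IsBoundedAtImInfty (fun z : ℍ ↦ E₄ z) := tendsto_E₄_atImInfty.isBigO_one ℝ
    have h6 : IsBoundedAtImInfty (fun z : ℍ ↦ E₆ z) := tendsto_E₆_atImInfty.isBigO_one ℝ
    refine Asymptotics.IsBigO.congr_left ((h1.mul h4).mul h6) fun z ↦ ?_
    simp only [Pi.mul_apply]
    rw [numFun_smul_eq_numFun_slash, numFun, pow_one,
      div_mul_cancel₀ _ (discriminant_ne_zero z)]⟩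

end Fermat.Agent.ProgramR.Forms
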