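/-
Program R, package R7 (helper3): the holomorphic functions `j`, `K = E₄²E₆/Δ = -D j`, cusp forms and
weakly holomorphic modular functions as elements of the domain `Hol`; the identities
`numFun f · K = f · j · (j - 1728)` and `ord_z (j - j z) = ord_z K + 1`; transformation of `K`.
-/
import Fermat.Agent.ProgramR.Forms.Num
import Fermat.Agent.ProgramR.Analytic.Division
import Fermat.Agent.ProgramR.Analytic.WH0Ring
import Fermat.Agent.ProgramR.Analytic.Dictionary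
import Fermat.Agent.ProgramR.LevelOne.Zeros

set_option autoImplicit false

noncomputable section

namespace Fermat.Agent.ProgramR.Forms

open UpperHalfPlane ModularForm EisensteinSeries MatrixGroups CongruenceSubgroup Filter Topology
  Derivative
open Fermat.Agent.ProgramR.LevelOne
open scoped Manifold

local notation "Δ" => ModularForm.discriminant

lemma slComp_toHol {Γ : Subgroup SL(2, ℤ)} (h : ↥(WH0 Γ)) {γ : SL(2, ℤ)} (hγ : γ ∈ Γ) :
    Hol.slComp γ (WH0.toHol Γ h) = WH0.toHol Γ h := by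
  apply Hol.ext
  intro z
  exact (mem_WH0.mp h.2).smul_eq γ hγ z

/-- `K = E₄² E₆ / Δ = - D j` as an element of `Hol`. -/
def kHol : Hol :=
  ⟨fun z => E₄ z ^ 2 * E₆ z / Δ z, by
    have h : MDiff (fun z ↦ (E₄ z ^ 2 * E₆ z) / CuspForm.discriminant z) :=
      ((E₄.holo'.pow 2).mul E₆.holo').div CuspForm.discriminant.holo' discriminant_ne_zero
    exact h⟩

@[simp] lemma kHol_apply (z : ℍ) : (kHol : ℍ → ℂ) z = E₄ z ^ 2 * E₆ z / Δ z := rfl

lemma kHol_eq_neg_D (z : ℍ) : (kHol : ℍ → ℂ) z = - D jInv z := by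
  rw [kHol_apply, D_jInv]; ring

/-- `K (γ z) = (cz+d)² K(z)`. -/
lemma kHol_smul (γ : SL(2, ℤ)) (z : ℍ) :
    (kHol : ℍ → ℂ) (γ • z) = denom γ z ^ 2 * (kHol : ℍ → ℂ) z := by
  have hd : denom γ z ≠ 0 := denom_ne_zero _ _
  have hΔ : Δ z ≠ 0 := discriminant_ne_zero z
  rw [kHol_apply, kHol_apply, discriminant_smul, E₄_smul, E₆_smul]
  have h12 : denom γ z ^ (12 : ℤ) = denom γ z ^ (12 : ℕ) := by norm_cast
  have h4 : denom γ z ^ (4 : ℤ) = denom γ z ^ (4 : ℕ) := by norm_cast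
  have h6 : denom γ z ^ (6 : ℤ) = denom γ z ^ (6 : ℕ) := by norm_cast
  rw [h12, h4, h6]
  field_simp

/-- `ord_z (j - j(z)) = ord_z K + 1`. -/
theorem ordAt_jHol_sub_eq_kHol (z : ℍ) :
    Hol.ordAt z (jHol - algebraMap ℂ Hol (jInv z)) = Hol.ordAt z kHol + 1 := by
  have hj : AnalyticAt ℂ ((jHol : ℍ → ℂ) ∘ ofComplex) (z : ℂ) := jHol.analyticAt z
  have h1 := hj.analyticOrderAt_deriv_add_one
  have e1 : Hol.ordAt z (jHol - algebraMap ℂ Hol (jInv z)) =
      analyticOrderAt (fun w => ((jHol : ℍ → ℂ) ∘ ofComplex) w - ((jHol : ℍ → ℂ) ∘ ofComplex) z)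
        (z : ℂ) := by
    unfold Hol.ordAt
    congr 1
    funext w
    simp [Hol.algebraMap_apply]
  rw [e1, ← h1]
  congr 1
  -- the derivative of `j ∘ ofComplex` is `2πi · D j = -2πi · K` near `z`
  unfold Hol.ordAt
  have hev : deriv ((jHol : ℍ → ℂ) ∘ ofComplex) =ᶠ[𝓝 (z : ℂ)]
      fun w => (-(2 * Real.pi * Complex.I)) * ((kHol : ℍ → ℂ) ∘ ofComplex) w := by
    have hopen : {w : ℂ | 0 < w.im} ∈ 𝓝 (z : ℂ) := isOpen_upperHalfPlaneSet.mem_nhds z.im_pos
    filter_upwards [hopen] with w hw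
    have := deriv_comp_ofComplex jInv ⟨w, hw⟩
    simp only [Function.comp_apply, ofComplex_apply_of_im_pos hw, kHol_eq_neg_D]
    rw [show ((jHol : ℍ → ℂ) ∘ ofComplex) = (jInv ∘ ofComplex) from rfl]
    rw [show ((⟨w, hw⟩ : ℍ) : ℂ) = w from rfl] at this
    rw [this]; ring
  rw [analyticOrderAt_congr hev]
  have hc : (-(2 * Real.pi * Complex.I) : ℂ) ≠ 0 := neg_ne_zero.mpr two_pi_I_ne_zero
  have : (fun w => (-(2 * Real.pi * Complex.I)) * ((kHol : ℍ → ℂ) ∘ ofComplex) w) =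
      (fun _ : ℂ => (-(2 * Real.pi * Complex.I) : ℂ)) * ((kHol : ℍ → ℂ) ∘ ofComplex) := rfl
  rw [this, analyticOrderAt_mul analyticAt_const (kHol.analyticAt z)]
  have h0 : analyticOrderAt (fun _ : ℂ => (-(2 * Real.pi * Complex.I) : ℂ)) (z : ℂ) = 0 := by
    rw [analyticAt_const.analyticOrderAt_eq_zero]; exact hc
  rw [h0, zero_add]

variable {N : ℕ} [NeZero N]

/-- A weight-2 cusp form as an element of `Hol`. -/
def cuspHol (f : CuspForm (Gamma0 N) 2) : Hol := ⟨f, f.holo'⟩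

@[simp] lemma cuspHol_apply (f : CuspForm (Gamma0 N) 2) (z : ℍ) :
    (cuspHol f : ℍ → ℂ) z = f z := rfl

/-- The numerator of a cusp form, as an element of `WH0 Γ₀(N)`. -/
def numB (f : CuspForm (Gamma0 N) 2) : ↥(WH0 (Gamma0 N)) := ⟨numFun f, isWH0_numFun f⟩

@[simp] lemma numB_apply (f : CuspForm (Gamma0 N) 2) (z : ℍ) : (numB f).1 z = numFun f z := rfl

/-- `numFun f · K = f · j · (j - 1728)`. -/
theorem numB_mul_kHol (f : CuspForm (Gamma0 N) 2) :
    WH0.toHol (Gamma0 N) (numB f) * kHol =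
      cuspHol f * jHol * (jHol - algebraMap ℂ Hol 1728) := by
  apply Hol.ext
  intro z
  have hΔ : Δ z ≠ 0 := discriminant_ne_zero z
  show numFun f z * (E₄ z ^ 2 * E₆ z / Δ z) = f z * jInv z * (jInv z - 1728)
  rw [jInv_sub_1728, jInv_def, numFun]
  field_simp

end Fermat.Agent.ProgramR.Forms
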